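/-
S56 / block COUNT, node CNT-10c (owner helper79): **INF**, a class of `H^1_S(N)` which is locally
trivial at the primes of `S \ S₀` is inflated from `H^1_{S₀}(N)`.
-/
import Fermat.Agent.S56.Count.Defs
import Fermat.Agent.S55.Coh.ResApi
import Fermat.Agent.S55.Bridge.LocalImage
import Fermat.Agent.S56.Count.WIP.Inertia

set_option autoImplicit false

namespace Fermat.Agent.S56.Count

open Fermat.Agent.S55 Fermat.Agent.S55.FB

/-! ### The kernel of a cocycle on a subgroup acting trivially -/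

section Ker

variable {G : Type} [Group G] {A : Type} [AddCommGroup A] [DistribMulAction G A]

theorem Inf.cocycle_one_eq_zero {f : (Fin 1 → G) → A} (hf : dd A 1 f = 0) :
    f (fun _ => 1) = 0 := by
  have h := cocycle_one hf 1 1
  rw [one_smul, mul_one] at h
  exact left_eq_add.mp h

/-- `{u ∈ U | f u = 0}` for a cocycle `f` and a subgroup `U` acting trivially. -/
def Inf.kerSub (f : (Fin 1 → G) → A) (hf : dd A 1 f = 0) (U : Subgroup G)
    (hU : ∀ u ∈ U, ∀ a : A, u • a = a) : Subgroup G where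
  carrier := {u | u ∈ U ∧ f (fun _ => u) = 0}
  one_mem' := ⟨U.one_mem, Inf.cocycle_one_eq_zero hf⟩
  mul_mem' := by
    rintro u v ⟨hu, hu0⟩ ⟨hv, hv0⟩
    exact ⟨U.mul_mem hu hv, by rw [cocycle_one hf, hu0, hv0, smul_zero, add_zero]⟩
  inv_mem' := by
    rintro u ⟨hu, hu0⟩
    refine ⟨U.inv_mem hu, ?_⟩
    have h := cocycle_one hf u u⁻¹
    rw [mul_inv_cancel, Inf.cocycle_one_eq_zero hf, hu0, zero_add, hU u hu] at h
    exact h.symm

theorem Inf.mem_kerSub {f : (Fin 1 → G) → A} {hf : dd A 1 f = 0} {U : Subgroup G}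
    {hU : ∀ u ∈ U, ∀ a : A, u • a = a} {u : G} :
    u ∈ Inf.kerSub f hf U hU ↔ u ∈ U ∧ f (fun _ => u) = 0 := Iff.rfl

theorem Inf.kerSub_normal (f : (Fin 1 → G) → A) (hf : dd A 1 f = 0) (U : Subgroup G)
    (hU : ∀ u ∈ U, ∀ a : A, u • a = a) (hn : U.Normal) : (Inf.kerSub f hf U hU).Normal := by
  refine ⟨fun u hu g => ?_⟩
  obtain ⟨hu, hu0⟩ := hu
  refine ⟨hn.conj_mem u hu g, ?_⟩
  have h1 := cocycle_one hf g g⁻¹
  rw [mul_inv_cancel, Inf.cocycle_one_eq_zero hf] at h1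
  rw [cocycle_one hf, cocycle_one hf, hu0, smul_zero, add_zero, mul_smul, hU u hu]
  exact h1.symm

theorem Inf.apply_eq_of_kerSub {f : (Fin 1 → G) → A} {hf : dd A 1 f = 0} {U : Subgroup G}
    {hU : ∀ u ∈ U, ∀ a : A, u • a = a} (g k : Fin 1 → G)
    (h : ∀ i, (g i)⁻¹ * k i ∈ Inf.kerSub f hf U hU) : f g = f k := by
  have hg : g = fun _ => g 0 := by
    funext i; rw [Subsingleton.elim i 0]
  have hk : k = fun _ => g 0 * ((g 0)⁻¹ * k 0) := by
    funext i; rw [Subsingleton.elim i 0, mul_inv_cancel_left]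
  rw [hk, cocycle_one hf, (h 0).2, smul_zero, add_zero, ← hg]

end Ker

variable {S₀ S : Finset Nat.Primes} {p : ℕ}
variable {N : Type} [AddCommGroup N] [DistribMulAction GQ N]

theorem Inf.plc_liesOverPrime (q : Nat.Primes) : (plc q).LiesOverPrime (q : ℕ) := by
  have : Fact (q : ℕ).Prime := ⟨q.2⟩
  exact Fermat.Agent.S55.Bridge.padicPlace_liesOverPrime (q : ℕ)

/-- **INF** : a class of `H^1_S(N)` which is locally trivial at the primes of `S \ S₀` comes from
`H^1_{S₀}(N)`. -/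
theorem exists_refine_eq (h : (lvlS S₀).Le (lvlS S)) (hN : IsCoef S₀ p N) (b : Hsm (lvlS S) N 1)
    (hb : ∀ q ∈ S, q ∉ S₀ → locS S N q 1 b = 0) :
    ∃ b₀ : Hsm (lvlS S₀) N 1, Hsm.refine N h 1 b₀ = b := by
  induction b using Hsm.induction_on with
  | h z =>
    have hfin := hN.finite
    have hsm := hN.smooth
    have hd : dd N 1 z.1 = 0 := dd_eq_zero_of_mem_Zsm z.2
    -- a level of `lvlS S₀` acting trivially on `N`
    obtain ⟨U0, hU0, hfix⟩ := Smooth.exists_fix_of_finite (𝓝 := lvlS S₀) (A := N)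
      (Set.finite_univ (α := N))
    have hU : ∀ u ∈ U0, ∀ a : N, u • a = a := fun u hu a => hfix a (Set.mem_univ a) u hu
    have hn0 : U0.Normal := (lvlS S₀).normal U0 hU0
    -- the kernel of `z` on `U0`
    have hn1 := Inf.kerSub_normal z.1 hd U0 hU hn0
    have hopen : (lvlS S).IsOpen (Inf.kerSub z.1 hd U0 hU) := by
      obtain ⟨N1, hN1, hlev⟩ := z.2.1
      obtain ⟨U0', hU0', hle0⟩ := h U0 hU0
      obtain ⟨N2, hN2, hle⟩ := (lvlS S).directed N1 hN1 U0' hU0'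
      refine ⟨N2, hN2, fun u hu => ⟨hle0 (hle hu).2, ?_⟩⟩
      rw [← Inf.cocycle_one_eq_zero hd]
      refine (hlev _ _ fun _ => ?_).symm
      rw [inv_one, one_mul]
      exact (hle hu).1
    have hin : ∀ q ∈ S, q ∉ S₀ → ∀ τ ∈ inertiaLoc q, ιv q τ ∈ Inf.kerSub z.1 hd U0 hU := by
      intro q hq hq0 τ hτ
      have hτ0 : ιv q τ ∈ U0 := by
        obtain ⟨F, hF, -, rfl⟩ := hU0
        exact hF.2 q hq0 (plc q) (Inf.plc_liesOverPrime q) hτ
      refine ⟨hτ0, ?_⟩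
      obtain ⟨e, -, he⟩ := (locS_mk_eq_zero_iff q z).1 (hb q hq hq0)
      have h1 := congrFun he (fun _ => τ)
      rw [dd_zero_apply] at h1
      have h2 : τ • e default = e default := hU (ιv q τ) hτ0 _
      rw [h2, sub_self] at h1
      exact h1.symm
    have hmem : Inf.kerSub z.1 hd U0 hU ∈ (lvlS S₀).carrier :=
      mem_lvlS_of_inertia _ hn1 hopen hin
    have hz0 : z.1 ∈ Zsm (lvlS S₀) N 1 :=
      ⟨⟨_, hmem, fun g k hgk => Inf.apply_eq_of_kerSub g k hgk⟩, hd⟩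
    obtain ⟨hz, hr⟩ := Hsm.refine_mk h 1 (⟨z.1, hz0⟩ : Zsm (lvlS S₀) N 1)
    exact ⟨_, hr⟩

end Fermat.Agent.S56.Count
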